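import Fermat.Agent.S16.H346.ThDefs
import Fermat.Agent.S16.H756.Bridge

/-!
# S16 / WP TH, sub-package AN (helper802): analytic facts about the quaternary theta series

Exact statements of section `AN` of helper346's sub-skeleton `H346/ThSkel.lean`, for the
definitions of `H346/ThDefs.lean`.  Everything is obtained from helper756's coset theta
library (`H756/*`) through the bridge `IsGoodLattice → LatticePair`.
-/

set_option autoImplicit false

noncomputable section

namespace Fermat.Agent.S16.H802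

open UpperHalfPlane ModularForm CongruenceSubgroup MatrixGroups ModularFormClass Matrix
open scoped Manifold

/-! ## Bridge between the two copies of the interface definitions -/

theorem good_iface {p : ℕ} {A B : Matrix (Fin 4) (Fin 4) ℤ}
    (hA : H346.IsGoodLattice p A B) : Fermat.Agent.S16.IsGoodLattice p A B :=
  ⟨hA.symm, hA.even, hA.posDef, hA.mul_eq, hA.even', hA.det_eq⟩

theorem qf_eq_iface (A : Matrix (Fin 4) (Fin 4) ℤ) (x : Fin 4 → ℤ) :
    H346.qf A x = Fermat.Agent.S16.qf A x := rfl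

theorem thetaChar_eq_iface (p : ℕ) (A B : Matrix (Fin 4) (Fin 4) ℤ) (y : Fin 4 → ℤ) :
    H346.thetaChar p A B y = Fermat.Agent.S16.thetaChar p A B y := rfl

theorem thetaFun_eq_iface (A : Matrix (Fin 4) (Fin 4) ℤ) :
    H346.thetaFun A = Fermat.Agent.S16.thetaFun A := rfl

/-! ## Real form of the exponents -/

section expo

variable {p : ℕ} [Fact p.Prime] {A B : Matrix (Fin 4) (Fin 4) ℤ}

/-- the exponent of `Θ_y` is the dual form at `y + A x`. -/
theorem expo_eq_qf_coset (hA : H346.IsGoodLattice p A B) (y x : Fin 4 → ℤ) :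
    (H346.qf A x : ℝ) + 2 * ((x ⬝ᵥ y : ℤ) : ℝ) + (H346.qf B y : ℝ) / p =
      H756.qf (H756.invR p B) (H756.vR (y + A *ᵥ x)) := by
  rw [(H756.latticePair_of_good (good_iface hA)).qf_coset, H756.qf_invR]
  simp only [H346.qf, Fermat.Agent.S16.qf]
  ring

theorem qf_B_div_eq (p : ℕ) (B : Matrix (Fin 4) (Fin 4) ℤ) (w : Fin 4 → ℤ) :
    (H346.qf B w : ℝ) / p = H756.qf (H756.invR p B) (H756.vR w) := by
  rw [H756.qf_invR]
  rfl

theorem qf_A_eq (A : Matrix (Fin 4) (Fin 4) ℤ) (v : Fin 4 → ℤ) :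
    (H346.qf A v : ℝ) = H756.qf (H756.mR A) (H756.vR v) := by
  rw [H756.qf_mR]
  rfl

end expo

/-! ## Section AN -/

section AN

variable {p : ℕ} [Fact p.Prime] {A B : Matrix (Fin 4) (Fin 4) ℤ}


/-- basic summability of the Gaussian. -/
theorem summable_gauss (hA : H346.IsGoodLattice p A B) {t : ℝ} (ht : 0 < t) :
    Summable (fun v : Fin 4 → ℤ => Real.exp (-t * (H346.qf A v : ℝ))) := by
  have hpos : (H756.mR A).PosDef := hA.posDef
  refine (H756.summable_exp_neg_qf hpos ht).congr fun v => ?_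
  rw [qf_A_eq, neg_mul]

/-- summability of the (norms of the) terms of `H346.thetaChar`, locally uniformly:
the real majorant at height `t`. -/
theorem summable_majorant (hA : H346.IsGoodLattice p A B) (y : Fin 4 → ℤ) {t : ℝ} (ht : 0 < t) :
    Summable (fun x : Fin 4 → ℤ =>
      Real.exp (-t * ((H346.qf A x : ℝ) + 2 * ((x ⬝ᵥ y : ℤ) : ℝ) + (H346.qf B y : ℝ) / p))) := by
  have hG := good_iface hA
  have h := (H756.summable_exp_neg_qf (H756.posDef_invR hG) ht).comp_injective
    ((H756.latticePair_of_good hG).coset_injective y)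
  refine h.congr fun x => ?_
  simp only [Function.comp_apply]
  rw [expo_eq_qf_coset hA, neg_mul]

theorem expo_nonneg (hA : H346.IsGoodLattice p A B) (y x : Fin 4 → ℤ) :
    0 ≤ (H346.qf A x : ℝ) + 2 * ((x ⬝ᵥ y : ℤ) : ℝ) + (H346.qf B y : ℝ) / p := by
  rw [expo_eq_qf_coset hA]
  exact H756.qf_nonneg_of_posDef (H756.posDef_invR (good_iface hA)) _

theorem norm_term (y x : Fin 4 → ℤ) (z : ℂ) :
    ‖Complex.exp (Real.pi * Complex.I * z *
        ((H346.qf A x : ℂ) + 2 * ((x ⬝ᵥ y : ℤ) : ℂ) + (H346.qf B y : ℂ) / p))‖ =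
      Real.exp (-(Real.pi * z.im) * ((H346.qf A x : ℝ) + 2 * ((x ⬝ᵥ y : ℤ) : ℝ) + (H346.qf B y : ℝ) / p)) := by
  rw [Complex.norm_exp]
  congr 1
  have h : (Real.pi * Complex.I * z *
      ((H346.qf A x : ℂ) + 2 * ((x ⬝ᵥ y : ℤ) : ℂ) + (H346.qf B y : ℂ) / p) : ℂ) =
      ((Real.pi * ((H346.qf A x : ℝ) + 2 * ((x ⬝ᵥ y : ℤ) : ℝ) + (H346.qf B y : ℝ) / p) : ℝ) : ℂ) *
        (Complex.I * z) := by
    push_cast
    ring
  rw [h, Complex.re_ofReal_mul]
  simp only [Complex.mul_re, Complex.I_re, zero_mul, Complex.I_im, one_mul, zero_sub]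
  ring

theorem summable_term (hA : H346.IsGoodLattice p A B) (y : Fin 4 → ℤ) (z : ℍ) :
    Summable (fun x : Fin 4 → ℤ => Complex.exp (Real.pi * Complex.I * z *
      ((H346.qf A x : ℂ) + 2 * ((x ⬝ᵥ y : ℤ) : ℂ) + (H346.qf B y : ℂ) / p))) := by
  refine Summable.of_norm ?_
  have h := summable_majorant hA y (mul_pos Real.pi_pos z.im_pos)
  refine h.congr fun x => ?_
  rw [norm_term]
  rfl

/-- summability of the dual family in the inversion formula. -/
theorem summable_dual (hA : H346.IsGoodLattice p A B) (y : Fin 4 → ℤ) (z : ℍ) :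
    Summable (fun w : Fin 4 → ℤ =>
      Complex.exp (Real.pi * Complex.I * z * ((H346.qf B w : ℂ) / p) +
        2 * Real.pi * Complex.I * (((w ⬝ᵥ B.mulVec y : ℤ) : ℂ) / p))) := by
  refine Summable.of_norm ?_
  have h := H756.summable_exp_neg_qf (H756.posDef_invR (good_iface hA))
    (mul_pos Real.pi_pos z.im_pos)
  refine h.congr fun w => ?_
  rw [Complex.norm_exp]
  congr 1
  rw [← qf_B_div_eq]
  have h1 : (Real.pi * Complex.I * (z : ℂ) * ((H346.qf B w : ℂ) / p) +
      2 * Real.pi * Complex.I * (((w ⬝ᵥ B.mulVec y : ℤ) : ℂ) / p) : ℂ) =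
      ((Real.pi * ((H346.qf B w : ℝ) / p) : ℝ) : ℂ) * (Complex.I * z) +
        ((2 * Real.pi * (((w ⬝ᵥ B.mulVec y : ℤ) : ℝ) / p) : ℝ) : ℂ) * Complex.I := by
    push_cast
    ring
  rw [h1, Complex.add_re, Complex.re_ofReal_mul, Complex.re_ofReal_mul]
  simp only [Complex.mul_re, Complex.I_re, zero_mul, Complex.I_im, one_mul, zero_sub,
    UpperHalfPlane.coe_im, mul_zero, add_zero]
  ring

theorem mdiff_thetaChar (hA : H346.IsGoodLattice p A B) (y : Fin 4 → ℤ) :
    MDiff (H346.thetaChar p A B y) := by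
  rw [thetaChar_eq_iface]
  exact H756.mdiff_thetaChar (good_iface hA) y

theorem bounded_thetaChar (hA : H346.IsGoodLattice p A B) (y : Fin 4 → ℤ) :
    IsBoundedAtImInfty (H346.thetaChar p A B y) := by
  rw [thetaChar_eq_iface]
  exact H756.isBoundedAtImInfty_thetaChar (good_iface hA) y

theorem thetaChar_zero (A B : Matrix (Fin 4) (Fin 4) ℤ) : H346.thetaChar p A B 0 = H346.thetaFun A := by
  funext z
  unfold H346.thetaChar H346.thetaFun
  refine tsum_congr fun x => ?_
  have h0 : H346.qf B (0 : Fin 4 → ℤ) = 0 := by simp [H346.qf]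
  simp [h0]

theorem thetaFun_ne_zero (hA : H346.IsGoodLattice p A B) : H346.thetaFun A ≠ 0 := by
  intro h
  have hz : H346.thetaFun A UpperHalfPlane.I = 0 := by rw [h]; rfl
  -- the value at `i` is a sum of positive reals
  have hs : Summable (fun v : Fin 4 → ℤ => Real.exp (-Real.pi * (H346.qf A v : ℝ))) :=
    summable_gauss hA Real.pi_pos
  have hterm : ∀ x : Fin 4 → ℤ,
      Complex.exp (Real.pi * Complex.I * (UpperHalfPlane.I : ℍ) * (H346.qf A x : ℂ)) =
        ((Real.exp (-Real.pi * (H346.qf A x : ℝ)) : ℝ) : ℂ) := by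
    intro x
    rw [Complex.ofReal_exp]
    congr 1
    rw [UpperHalfPlane.coe_I]
    push_cast
    linear_combination (Real.pi : ℂ) * (H346.qf A x : ℂ) * Complex.I_mul_I
  have hval : H346.thetaFun A UpperHalfPlane.I =
      ((∑' x : Fin 4 → ℤ, Real.exp (-Real.pi * (H346.qf A x : ℝ)) : ℝ) : ℂ) := by
    unfold H346.thetaFun
    rw [Complex.ofReal_tsum]
    exact tsum_congr hterm
  rw [hval] at hz
  have hpos : 0 < ∑' x : Fin 4 → ℤ, Real.exp (-Real.pi * (H346.qf A x : ℝ)) :=
    hs.tsum_pos (fun _ => (Real.exp_pos _).le) 0 (Real.exp_pos _)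
  exact hpos.ne' (by exact_mod_cast hz)

end AN

end Fermat.Agent.S16.H802
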