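import Fermat.Agent.S16.H802.ThAN

/-!
# S16 / WP TH, sub-package QE (helper802): `q`-expansion of the quaternary theta series

Exact statements `qCoeff_theta`, `analyticAt_cuspFunction_theta` of helper346's sub-skeleton
`H346/ThSkel.lean` (definitions of `H346/ThDefs.lean`), transported from helper756's
`H756/Bridge.lean`.
-/

set_option autoImplicit false

noncomputable section

namespace Fermat.Agent.S16.H802

open UpperHalfPlane ModularForm CongruenceSubgroup MatrixGroups ModularFormClass Matrix
open scoped Manifold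

theorem qCoeff_theta (p : ℕ) [Fact p.Prime] (A B : Matrix (Fin 4) (Fin 4) ℤ)
    (hA : H346.IsGoodLattice p A B) :
    qCoeff (H346.thetaFun A) 0 = 1 ∧
      ∀ k : ℕ, 1 ≤ k → ∃ m : ℤ, qCoeff (H346.thetaFun A) k = 2 * (m : ℂ) :=
  H756.qCoeff_theta p A B (good_iface hA)

/-- analyticity of the cusp function (for `qExpansion_smul`). -/
theorem analyticAt_cuspFunction_theta (p : ℕ) [Fact p.Prime] (A B : Matrix (Fin 4) (Fin 4) ℤ)
    (hA : H346.IsGoodLattice p A B) :
    AnalyticAt ℂ (cuspFunction 1 (H346.thetaFun A)) 0 := by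
  have hG := good_iface hA
  have hper := Fermat.Agent.S24.JFun.periodic_comp_ofComplex_of_vadd (H756.thetaFun_vadd hG)
  exact analyticAt_cuspFunction_zero one_pos hper (H756.mdiff_thetaFun hG)
    (H756.isBoundedAtImInfty_thetaFun hG)

end Fermat.Agent.S16.H802
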